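import Fermat.Agent.ThreePrimes.Major
import Mathlib.Algebra.Order.Chebyshev

/-!
# Bilinear sums over primes with bounded coefficients

`∑_{a < p ≤ b} ∑_{m ≤ N / p} log p f p g m e (p m α)` by Cauchy and Vinogradov's lemma.
-/

set_option autoImplicit false

noncomputable section

namespace FA.MultiplicativeExpSum

open Finset
open FA.ThreePrimes (eAdd norm_eAdd eAdd_add clip)
open scoped Real ComplexConjugate

/-- The primes in `(a, b]`. -/
def primesIoc (a b : ℕ) : Finset ℕ := (Ioc a b).filter Nat.Prime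

theorem mem_primesIoc {a b p : ℕ} : p ∈ primesIoc a b ↔ (a < p ∧ p ≤ b) ∧ p.Prime := by
  simp [primesIoc]

theorem sum_primesIoc_log_le (a b : ℕ) : ∑ p ∈ primesIoc a b, Real.log p ≤ 6 * b := by
  refine le_trans (le_of_eq_of_le (sum_congr rfl fun p hp => ?_)
    (sum_le_sum_of_subset_of_nonneg (fun p hp => ?_)
      fun n _ _ => ArithmeticFunction.vonMangoldt_nonneg)) (ThreePrimes.sum_vonMangoldt_le b)
  · rw [ArithmeticFunction.vonMangoldt_apply_prime (mem_primesIoc.1 hp).2]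
  · have := mem_primesIoc.1 hp
    exact mem_Ioc.2 ⟨this.2.pos, this.1.2⟩

/-- The part of the bilinear sum with `p` in `(a, b]`. -/
def primePart (f : ℕ → ℂ) (α : ℝ) (N a b : ℕ) : ℂ :=
  ∑ p ∈ primesIoc a b, (Real.log p : ℂ) * f p *
    ∑ m ∈ Ioc 0 (N / p), f m * eAdd ((m : ℕ) * (p * α))

theorem primePart_add {a b c : ℕ} (f : ℕ → ℂ) (α : ℝ) (N : ℕ) (hab : a ≤ b) (hbc : b ≤ c) :
    primePart f α N a c = primePart f α N a b + primePart f α N b c := by
  rw [primePart, primePart, primePart, ← sum_union (disjoint_left.2 fun p h1 h2 => by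
    rw [mem_primesIoc] at h1 h2
    omega)]
  refine sum_congr ?_ fun p _ => rfl
  ext p
  simp only [mem_union, mem_primesIoc]
  constructor
  · rintro ⟨⟨h1, h2⟩, hp⟩
    rcases le_or_gt p b with h | h
    exacts [Or.inl ⟨⟨h1, h⟩, hp⟩, Or.inr ⟨⟨h, h2⟩, hp⟩]
  · rintro (⟨⟨h1, h2⟩, hp⟩ | ⟨⟨h1, h2⟩, hp⟩)
    exacts [⟨⟨h1, by omega⟩, hp⟩, ⟨⟨by omega, h2⟩, hp⟩]

/-- The square of the inner sums, expanded. -/
theorem sum_norm_sq_expand (s : Finset ℕ) (w : ℕ → ℂ) (K : ℕ → ℕ) {T : ℕ} (hK : ∀ p ∈ s, K p ≤ T)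
    (α : ℝ) :
    ∑ m ∈ Ioc 0 T, ‖∑ p ∈ s, if m ≤ K p then w p * eAdd ((m : ℕ) * (p * α)) else 0‖ ^ 2 ≤
      ∑ p ∈ s, ∑ r ∈ s, ‖w p‖ * ‖w r‖ * clip T ((p - r : ℝ) * α) := by
  have e : ((∑ m ∈ Ioc 0 T,
      ‖∑ p ∈ s, if m ≤ K p then w p * eAdd ((m : ℕ) * (p * α)) else 0‖ ^ 2 : ℝ) : ℂ) =
      ∑ p ∈ s, ∑ r ∈ s, w p * conj (w r) *
        ∑ m ∈ Ioc 0 (min (K p) (K r)), eAdd ((m : ℕ) * ((p - r : ℝ) * α)) := by
    rw [Complex.ofReal_sum]
    simp only [mul_sum]
    rw [sum_congr rfl fun m _ => show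
      ((‖∑ p ∈ s, if m ≤ K p then w p * eAdd ((m : ℕ) * (p * α)) else 0‖ ^ 2 : ℝ) : ℂ) =
        ∑ p ∈ s, ∑ r ∈ s, if m ≤ K p ∧ m ≤ K r then
          w p * conj (w r) * eAdd ((m : ℕ) * ((p - r : ℝ) * α)) else 0 by
      rw [Complex.ofReal_pow, ← Complex.mul_conj', map_sum, sum_mul_sum]
      refine sum_congr rfl fun p _ => sum_congr rfl fun r _ => ?_
      by_cases h1 : m ≤ K p
      · by_cases h2 : m ≤ K r
        · rw [if_pos h1, if_pos h2, if_pos ⟨h1, h2⟩, map_mul, ThreePrimes.conj_eAdd,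
            mul_mul_mul_comm, ← eAdd_add]
          ring_nf
        · rw [if_neg h2, map_zero, mul_zero, if_neg (fun h : m ≤ K p ∧ m ≤ K r => h2 h.2)]
      · rw [if_neg h1, zero_mul, if_neg (fun h : m ≤ K p ∧ m ≤ K r => h1 h.1)], sum_comm]
    refine sum_congr rfl fun p hp => ?_
    rw [sum_comm]
    refine sum_congr rfl fun r hr => ?_
    rw [← sum_filter]
    refine sum_congr ?_ fun m _ => rfl
    ext m
    simp only [mem_filter, mem_Ioc, le_min_iff]
    constructor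
    · exact fun h => ⟨h.1.1, h.2⟩
    · exact fun h => ⟨⟨h.1, h.2.1.trans (hK p hp)⟩, h.2⟩
  have hnn : 0 ≤ ∑ m ∈ Ioc 0 T,
      ‖∑ p ∈ s, if m ≤ K p then w p * eAdd ((m : ℕ) * (p * α)) else 0‖ ^ 2 :=
    sum_nonneg fun m _ => sq_nonneg _
  rw [← Real.norm_of_nonneg hnn, ← Complex.norm_real, e]
  refine (norm_sum_le _ _).trans (sum_le_sum fun p hp => (norm_sum_le _ _).trans
    (sum_le_sum fun r _ => ?_))
  rw [norm_mul, norm_mul, Complex.norm_conj]
  refine mul_le_mul_of_nonneg_left ((ThreePrimes.norm_geom_le _ 0 _).trans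
    (ThreePrimes.clip_mono ?_ _)) (by positivity)
  rw [Nat.sub_zero]
  exact Nat.cast_le.2 ((min_le_left _ _).trans (hK p hp))

variable {q : ℕ} [NeZero q] {a : ℤ} {α : ℝ}

/-- **One dyadic range.** -/
theorem norm_primePart_sq_le (ha : IsUnit (a : ZMod q)) (hα : |α - a / q| ≤ 1 / (q : ℝ) ^ 2)
    {f : ℕ → ℂ} (hf : ∀ n, ‖f n‖ ≤ 1) {N x y : ℕ} (hx : 0 < x) (hy : y ≤ 2 * x) (hyN : y ≤ N) :
    ‖primePart f α N x y‖ ^ 2 ≤ 12 * N * Real.log N *
      ((5 * N / q + 2 * x * (1 + Real.log q)) + (5 * N / x + 2 * q * (1 + Real.log q))) := by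
  obtain ⟨T, hT⟩ : ∃ T, T = N / x := ⟨_, rfl⟩
  have hx0 : (0 : ℝ) < x := Nat.cast_pos.2 hx
  have hq0 : (0 : ℝ) < q := Nat.cast_pos.2 (NeZero.pos q)
  have hTN : (T : ℝ) ≤ N / x := hT ▸ Nat.cast_div_le
  have hlog : 0 ≤ Real.log N := Real.log_natCast_nonneg N
  have hlq : 0 ≤ 1 + Real.log q := by linarith [Real.log_natCast_nonneg q]
  have hK : ∀ p ∈ primesIoc x y, N / p ≤ T := fun p hp => by
    rw [hT]
    exact Nat.div_le_div_left (mem_primesIoc.1 hp).1.1.le hx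
  have hswap : primePart f α N x y = ∑ m ∈ Ioc 0 T, f m * ∑ p ∈ primesIoc x y,
      if m ≤ N / p then ((Real.log p : ℂ) * f p) * eAdd ((m : ℕ) * (p * α)) else 0 := by
    simp only [primePart, mul_sum, mul_ite, mul_zero]
    rw [sum_comm (s := Ioc 0 T)]
    refine sum_congr rfl fun p hp => ?_
    rw [← sum_filter]
    refine sum_congr ?_ fun m _ => by ring
    ext m
    simp only [mem_filter, mem_Ioc]
    exact ⟨fun h => ⟨⟨h.1, h.2.trans (hK p hp)⟩, h.2⟩, fun h => ⟨h.1.1, h.2⟩⟩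
  have hcs : ‖primePart f α N x y‖ ^ 2 ≤ (T : ℝ) * ∑ m ∈ Ioc 0 T, ‖∑ p ∈ primesIoc x y,
      if m ≤ N / p then ((Real.log p : ℂ) * f p) * eAdd ((m : ℕ) * (p * α)) else 0‖ ^ 2 := by
    rw [hswap]
    refine (pow_le_pow_left₀ (norm_nonneg _) ((norm_sum_le _ _).trans
      (sum_le_sum fun m _ => (norm_mul_le _ _).trans
        (mul_le_of_le_one_left (norm_nonneg _) (hf m)))) 2).trans ?_
    refine (sq_sum_le_card_mul_sum_sq).trans (le_of_eq ?_)
    rw [Nat.card_Ioc, Nat.sub_zero]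
  have hw : ∀ p : ℕ, ‖(Real.log p : ℂ) * f p‖ ≤ Real.log p := fun p => by
    rw [norm_mul, Complex.norm_real, Real.norm_of_nonneg (Real.log_natCast_nonneg p)]
    exact mul_le_of_le_one_right (Real.log_natCast_nonneg p) (hf p)
  have hclip : ∀ p : ℕ, ∑ n ∈ Ioc x y, clip T ((p - n : ℝ) * α) ≤
      ((x : ℝ) / q + 1) * (5 * T + 2 * q * (1 + Real.log q)) := by
    intro p
    have ha' : IsUnit ((-a : ℤ) : ZMod q) := by
      rw [Int.cast_neg]
      exact ha.neg
    have hα' : |-α - ((-a : ℤ) : ℝ) / q| ≤ 1 / (q : ℝ) ^ 2 := by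
      rw [Int.cast_neg, neg_div, sub_neg_eq_add, neg_add_eq_sub, abs_sub_comm]
      exact hα
    rw [show Ioc x y = Ico (x + 1) (y + 1) by ext; simp, sum_Ico_eq_sum_range]
    refine le_trans (le_of_eq (sum_congr rfl fun k _ => ?_)) ((sum_le_sum_of_subset_of_nonneg
      (range_subset_range.2 (show y + 1 - (x + 1) ≤ x by omega))
      fun k _ _ => ThreePrimes.clip_nonneg (Nat.cast_nonneg T) _).trans
      (ThreePrimes.sum_clip_range_le ha' hα' (((p : ℝ) - (x + 1)) * α) (Nat.cast_nonneg T) x))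
    congr 1
    push_cast
    ring
  refine hcs.trans ?_
  calc (T : ℝ) * ∑ m ∈ Ioc 0 T, ‖∑ p ∈ primesIoc x y,
        if m ≤ N / p then ((Real.log p : ℂ) * f p) * eAdd ((m : ℕ) * (p * α)) else 0‖ ^ 2
      ≤ (T : ℝ) * ∑ p ∈ primesIoc x y, Real.log p *
          (Real.log N * (((x : ℝ) / q + 1) * (5 * T + 2 * q * (1 + Real.log q)))) := by
        refine mul_le_mul_of_nonneg_left ((sum_norm_sq_expand _ _ (fun p => N / p) hK α).trans
          (sum_le_sum fun p _ => ?_)) (Nat.cast_nonneg T)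
        simp only [mul_assoc, ← mul_sum]
        refine mul_le_mul (hw p) ((sum_le_sum (g := fun r : ℕ =>
          Real.log N * clip T ((p - r : ℝ) * α)) fun r hr => ?_).trans ?_)
          (sum_nonneg fun r _ => mul_nonneg (norm_nonneg _)
            (ThreePrimes.clip_nonneg (Nat.cast_nonneg T) _)) (Real.log_natCast_nonneg p)
        · exact mul_le_mul_of_nonneg_right ((hw r).trans (Real.log_le_log
            (Nat.cast_pos.2 (mem_primesIoc.1 hr).2.pos)
            (Nat.cast_le.2 ((mem_primesIoc.1 hr).1.2.trans hyN))))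
            (ThreePrimes.clip_nonneg (Nat.cast_nonneg T) _)
        · rw [← mul_sum]
          refine mul_le_mul_of_nonneg_left ?_ hlog
          have := hclip p
          simp only [mul_assoc] at this
          exact (sum_le_sum_of_subset_of_nonneg (filter_subset _ _)
            fun k _ _ => ThreePrimes.clip_nonneg (Nat.cast_nonneg T) _).trans this
    _ ≤ (N : ℝ) / x * (12 * x *
          (Real.log N * (((x : ℝ) / q + 1) * (5 * (N / x) + 2 * q * (1 + Real.log q))))) := by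
        rw [← sum_mul]
        refine mul_le_mul hTN (mul_le_mul ((sum_primesIoc_log_le x y).trans ?_) ?_ (by positivity)
          (by positivity)) (mul_nonneg (sum_nonneg fun p _ => Real.log_natCast_nonneg p)
            (by positivity)) (by positivity)
        · have : (y : ℝ) ≤ 2 * x := by exact_mod_cast hy
          linarith
        · gcongr
    _ = _ := by
        field_simp

end FA.MultiplicativeExpSum

end
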