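import Fermat.Agent.MultiplicativeExpSum.Bilinear
import Fermat.Agent.DivisorArcsine.Moments

/-!
# Exponential sums with multiplicative coefficients

`log N ∑ f n e (n α) = ∑_{p m ≤ N} log p f p f m e (p m α) + O (N)` and the bilinear bound give
`∑_{n ≤ N} f n e (n α) = O (N (1 + log R) / log N + N log N / √R)` for `R ≤ q ≤ N / R`.
-/

set_option autoImplicit false

noncomputable section

namespace FA.MultiplicativeExpSum

open Finset
open FA.ThreePrimes (eAdd norm_eAdd)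
open scoped Real ArithmeticFunction.vonMangoldt

theorem sum_log_Ioc (N : ℕ) : ∑ n ∈ Ioc 0 N, Real.log n = Real.log N.factorial := by
  induction N with
  | zero => simp
  | succ N ih =>
    rw [sum_Ioc_succ_top (Nat.zero_le N), ih, Nat.factorial_succ, Nat.cast_mul,
      Real.log_mul (by positivity) (by positivity)]
    ring

theorem sum_log_sub_le (N : ℕ) : ∑ n ∈ Ioc 0 N, (Real.log N - Real.log n) ≤ N := by
  rcases Nat.eq_zero_or_pos N with rfl | hN
  · simp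
  have h := Real.log_le_log (by positivity)
    (Real.pow_div_factorial_le_exp (N : ℝ) (Nat.cast_nonneg N) N)
  rw [Real.log_exp, Real.log_div (by positivity) (by positivity), Real.log_pow] at h
  rw [sum_sub_distrib, sum_log_Ioc, sum_const, Nat.card_Ioc, Nat.sub_zero, nsmul_eq_mul]
  linarith

theorem sum_vonMangoldt_swap (g : ℕ → ℂ) (N : ℕ) :
    ∑ n ∈ Ioc 0 N, (Real.log n : ℂ) * g n =
      ∑ d ∈ Ioc 0 N, (Λ d : ℂ) * ∑ m ∈ Ioc 0 (N / d), g (d * m) := by
  have e : ∀ n ∈ Ioc 0 N, (Real.log n : ℂ) * g n =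
      ∑ d ∈ Ioc 0 N, if d ∣ n then (Λ d : ℂ) * g n else 0 := fun n hn => by
    rw [mem_Ioc] at hn
    rw [← sum_filter, ← ArithmeticFunction.vonMangoldt_sum, Complex.ofReal_sum, sum_mul]
    refine sum_congr ?_ fun d _ => rfl
    ext d
    simp only [Nat.mem_divisors, mem_filter, mem_Ioc]
    exact ⟨fun h => ⟨⟨Nat.pos_of_dvd_of_pos h.1 hn.1, (Nat.le_of_dvd hn.1 h.1).trans hn.2⟩, h.1⟩,
      fun h => ⟨h.2, hn.1.ne'⟩⟩
  rw [sum_congr rfl e, sum_comm]
  refine sum_congr rfl fun d hd => ?_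
  have hd0 : 0 < d := (mem_Ioc.1 hd).1
  rw [← sum_filter, mul_sum]
  refine (sum_nbij' (fun m => d * m) (fun n => n / d) ?_ ?_ ?_ ?_ fun m _ => rfl).symm
  · intro m hm
    rw [mem_Ioc] at hm
    rw [mem_filter, mem_Ioc]
    exact ⟨⟨Nat.mul_pos hd0 hm.1, by
      rw [mul_comm]; exact (Nat.le_div_iff_mul_le hd0).1 hm.2⟩, dvd_mul_right d m⟩
  · intro n hn
    rw [mem_filter, mem_Ioc] at hn
    rw [mem_Ioc]
    exact ⟨Nat.div_pos (Nat.le_of_dvd hn.1.1 hn.2) hd0, Nat.div_le_div_right hn.1.2⟩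
  · intro m _
    exact Nat.mul_div_cancel_left m hd0
  · intro n hn
    rw [mem_filter] at hn
    exact Nat.mul_div_cancel' hn.2

theorem primesIoc_zero (N : ℕ) : primesIoc 0 N = ErdosKac.primesUpTo N := by
  ext p
  rw [mem_primesIoc, ErdosKac.mem_primesUpTo]
  exact ⟨fun h => ⟨h.2, h.1.2⟩, fun h => ⟨⟨h.1.pos, h.2⟩, h.1⟩⟩

/-- **The identity up to `O (N)`.** -/
theorem exists_decomposition : ∃ C : ℝ, 0 ≤ C ∧ ∀ f : ℕ → ℂ,
    (∀ m n : ℕ, m.Coprime n → f (m * n) = f m * f n) → (∀ n, ‖f n‖ ≤ 1) →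
    ∀ (α : ℝ) (N : ℕ),
      ‖(Real.log N : ℂ) * ∑ n ∈ Ioc 0 N, f n * eAdd ((n : ℕ) * α) - primePart f α N 0 N‖ ≤
        C * N := by
  obtain ⟨C, hC⟩ := DivisorArcsine.exists_tail_le
  refine ⟨1 + 3 * |C|, by positivity, fun f hmul hf α N => ?_⟩
  rcases Nat.eq_zero_or_pos N with rfl | hN
  · simp [primePart, primesIoc]
  obtain ⟨g, hg⟩ : ∃ g : ℕ → ℂ, g = fun n : ℕ => f n * eAdd ((n : ℕ) * α) := ⟨_, rfl⟩
  have hgn : ∀ n, ‖g n‖ ≤ 1 := fun n => by
    rw [hg, norm_mul, norm_eAdd, mul_one]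
    exact hf n
  have h1 : ‖∑ n ∈ Ioc 0 N, ((Real.log N - Real.log n : ℝ) : ℂ) * g n‖ ≤ N := by
    refine (norm_sum_le _ _).trans ((sum_le_sum fun n hn => ?_).trans (sum_log_sub_le N))
    rw [mem_Ioc] at hn
    rw [norm_mul, Complex.norm_real, Real.norm_of_nonneg (sub_nonneg.2 (Real.log_le_log
      (Nat.cast_pos.2 hn.1) (Nat.cast_le.2 hn.2)))]
    exact mul_le_of_le_one_right (sub_nonneg.2 (Real.log_le_log (Nat.cast_pos.2 hn.1)
      (Nat.cast_le.2 hn.2))) (hgn n)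
  have hinner : ∀ d : ℕ, ‖∑ m ∈ Ioc 0 (N / d), g (d * m)‖ ≤ (N : ℝ) / d := fun d => by
    refine (norm_sum_le _ _).trans ((sum_le_card_nsmul _ _ 1 fun m _ => hgn _).trans ?_)
    rw [Nat.card_Ioc, Nat.sub_zero, nsmul_eq_mul, mul_one]
    exact Nat.cast_div_le
  have h2 : ‖∑ d ∈ (Ioc 0 N).filter (fun d => ¬d.Prime),
      (Λ d : ℂ) * ∑ m ∈ Ioc 0 (N / d), g (d * m)‖ ≤ |C| * N := by
    refine (norm_sum_le _ _).trans ((sum_le_sum (g := fun d : ℕ => (N : ℝ) * (Λ d / d))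
      fun d _ => ?_).trans ?_)
    · rw [norm_mul, Complex.norm_real, Real.norm_of_nonneg ArithmeticFunction.vonMangoldt_nonneg]
      exact (mul_le_mul_of_nonneg_left (hinner d) ArithmeticFunction.vonMangoldt_nonneg).trans
        (le_of_eq (by ring))
    · rw [← mul_sum, mul_comm]
      exact mul_le_mul_of_nonneg_right ((hC N hN).1.trans (le_abs_self C)) (Nat.cast_nonneg N)
  have h3 : ‖∑ p ∈ primesIoc 0 N, (Real.log p : ℂ) * ∑ m ∈ Ioc 0 (N / p), g (p * m) -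
      primePart f α N 0 N‖ ≤ 2 * |C| * N := by
    rw [primePart, ← sum_sub_distrib]
    refine (norm_sum_le _ _).trans ((sum_le_sum (g := fun p : ℕ =>
      2 * (N : ℝ) * (Real.log p / (p : ℝ) ^ 2)) fun p hp => ?_).trans ?_)
    · have hp' := (mem_primesIoc.1 hp).2
      rw [mul_assoc, ← mul_sub, norm_mul, Complex.norm_real,
        Real.norm_of_nonneg (Real.log_natCast_nonneg p)]
      refine (mul_le_mul_of_nonneg_left ?_ (Real.log_natCast_nonneg p)).trans_eq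
        (show Real.log p * (2 * ((N : ℝ) / (p : ℝ) ^ 2)) = _ by ring)
      rw [mul_sum, ← sum_sub_distrib]
      refine (norm_sum_le _ _).trans ((sum_le_sum (g := fun m : ℕ =>
        if p ∣ m then (2 : ℝ) else 0) fun m _ => ?_).trans ?_)
      · split_ifs with hdvd
        · refine (norm_sub_le _ _).trans ?_
          rw [norm_mul, norm_mul, norm_eAdd, mul_one]
          have := mul_le_one₀ (hf p) (norm_nonneg _) (hf m)
          linarith [hgn (p * m)]
        · rw [hg]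
          simp only
          rw [hmul p m (hp'.coprime_iff_not_dvd.2 hdvd), Nat.cast_mul]
          ring_nf
          simp
      · rw [← sum_filter, sum_const, nsmul_eq_mul, mul_comm, Nat.Ioc_filter_dvd_card_eq_div,
          Nat.div_div_eq_div_mul, pow_two, ← Nat.cast_mul]
        exact mul_le_mul_of_nonneg_left Nat.cast_div_le two_pos.le
    · rw [← mul_sum, primesIoc_zero]
      calc 2 * (N : ℝ) * ∑ p ∈ ErdosKac.primesUpTo N, Real.log p / (p : ℝ) ^ 2
          ≤ 2 * (N : ℝ) * |C| :=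
            mul_le_mul_of_nonneg_left ((hC N hN).2.trans (le_abs_self C)) (by positivity)
        _ = _ := by ring
  have e : (Real.log N : ℂ) * ∑ n ∈ Ioc 0 N, g n - primePart f α N 0 N =
      ∑ n ∈ Ioc 0 N, ((Real.log N - Real.log n : ℝ) : ℂ) * g n +
        ∑ d ∈ (Ioc 0 N).filter (fun d => ¬d.Prime),
          (Λ d : ℂ) * ∑ m ∈ Ioc 0 (N / d), g (d * m) +
        (∑ p ∈ primesIoc 0 N, (Real.log p : ℂ) * ∑ m ∈ Ioc 0 (N / p), g (p * m) -
          primePart f α N 0 N) := by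
    have hp : ∑ p ∈ primesIoc 0 N, (Real.log p : ℂ) * ∑ m ∈ Ioc 0 (N / p), g (p * m) =
        ∑ d ∈ (Ioc 0 N).filter Nat.Prime, (Λ d : ℂ) * ∑ m ∈ Ioc 0 (N / d), g (d * m) :=
      sum_congr rfl fun d hd => by
        rw [ArithmeticFunction.vonMangoldt_apply_prime (mem_primesIoc.1 hd).2]
    have hsum := sum_filter_add_sum_filter_not (Ioc 0 N) Nat.Prime
      (fun d => (Λ d : ℂ) * ∑ m ∈ Ioc 0 (N / d), g (d * m))
    have hl : ∑ n ∈ Ioc 0 N, ((Real.log N - Real.log n : ℝ) : ℂ) * g n =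
        (Real.log N : ℂ) * ∑ n ∈ Ioc 0 N, g n - ∑ n ∈ Ioc 0 N, (Real.log n : ℂ) * g n := by
      simp only [Complex.ofReal_sub, sub_mul, sum_sub_distrib, mul_sum]
    rw [hl, sum_vonMangoldt_swap, ← hsum, hp]
    ring
  rw [hg] at e
  simp only at e
  rw [e]
  subst hg
  refine (norm_add₃_le).trans ((add_le_add (add_le_add h1 h2) h3).trans ?_)
  linarith [abs_nonneg C]

/-- The small primes. -/
theorem norm_primePart_low_le {f : ℕ → ℂ} (hf : ∀ n, ‖f n‖ ≤ 1) (α : ℝ) (N : ℕ) {A : ℕ}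
    (hA : 1 ≤ A) : ‖primePart f α N 0 A‖ ≤ N * (Real.log A + 6) := by
  have hM : ∑ p ∈ primesIoc 0 A, Real.log p / (p : ℝ) ≤ Real.log A + 6 := by
    refine le_trans (le_of_eq_of_le (sum_congr rfl fun p hp => ?_)
      (sum_le_sum_of_subset_of_nonneg (t := Ioc 0 A) (f := fun n : ℕ => Λ n / (n : ℝ))
        (filter_subset _ _) fun n _ _ => div_nonneg ArithmeticFunction.vonMangoldt_nonneg
          (Nat.cast_nonneg n))) ?_
    · rw [ArithmeticFunction.vonMangoldt_apply_prime (mem_primesIoc.1 hp).2]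
    · linarith [(abs_le.1 (PrimesMinusOne.abs_sum_vonMangoldt_div_sub_le hA)).2]
  refine (norm_sum_le _ _).trans ((sum_le_sum (g := fun p : ℕ =>
    (N : ℝ) * (Real.log p / p)) fun p _ => ?_).trans ?_)
  · rw [norm_mul, norm_mul, Complex.norm_real, Real.norm_of_nonneg (Real.log_natCast_nonneg p)]
    refine (mul_le_mul (mul_le_of_le_one_right (Real.log_natCast_nonneg p) (hf p))
      ((norm_sum_le _ _).trans ((sum_le_card_nsmul _ _ (1 : ℝ) fun m _ => ?_).trans ?_))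
      (norm_nonneg _) (Real.log_natCast_nonneg p)).trans_eq
        (show Real.log p * ((N : ℝ) / p) = _ by ring)
    · rw [norm_mul, norm_eAdd, mul_one]
      exact hf m
    · rw [Nat.card_Ioc, Nat.sub_zero, nsmul_eq_mul, mul_one]
      exact Nat.cast_div_le
  · rw [← mul_sum]
    exact mul_le_mul_of_nonneg_left hM (Nat.cast_nonneg N)

/-- The large primes. -/
theorem norm_primePart_high_le {f : ℕ → ℂ} (hf : ∀ n, ‖f n‖ ≤ 1) (α : ℝ) (N B : ℕ) :
    ‖primePart f α N B N‖ ≤ 6 * N * (1 + Real.log (N / (B + 1) : ℕ)) := by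
  obtain ⟨T, hT⟩ : ∃ T, T = N / (B + 1) := ⟨_, rfl⟩
  rw [← hT]
  refine (norm_sum_le _ _).trans ((sum_le_sum (g := fun p : ℕ =>
    ∑ m ∈ Ioc 0 T, if p ≤ N / m then Real.log p else 0) fun p hp => ?_).trans ?_)
  · obtain ⟨⟨hBp, -⟩, hpp⟩ := mem_primesIoc.1 hp
    rw [norm_mul, norm_mul, Complex.norm_real, Real.norm_of_nonneg (Real.log_natCast_nonneg p),
      ← sum_filter, sum_const, nsmul_eq_mul, mul_comm _ (Real.log p)]
    refine mul_le_mul (mul_le_of_le_one_right (Real.log_natCast_nonneg p) (hf p))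
      ((norm_sum_le _ _).trans ((sum_le_card_nsmul _ _ (1 : ℝ) fun m _ => ?_).trans ?_))
      (norm_nonneg _) (Real.log_natCast_nonneg p)
    · rw [norm_mul, norm_eAdd, mul_one]
      exact hf m
    · rw [nsmul_eq_mul, mul_one, Nat.cast_le]
      refine card_le_card fun m hm => ?_
      rw [mem_Ioc] at hm
      rw [mem_filter, mem_Ioc, hT]
      refine ⟨⟨hm.1, hm.2.trans (Nat.div_le_div_left hBp (Nat.succ_pos B))⟩, ?_⟩
      rw [Nat.le_div_iff_mul_le hm.1, mul_comm]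
      exact (Nat.le_div_iff_mul_le hpp.pos).1 hm.2
  · rw [sum_comm]
    refine (sum_le_sum (g := fun m : ℕ => 6 * (N : ℝ) * (m : ℝ)⁻¹) fun m _ => ?_).trans ?_
    · rw [← sum_filter]
      refine le_trans (sum_le_sum_of_subset_of_nonneg (t := primesIoc 0 (N / m))
        (fun p hp => ?_) fun p _ _ => Real.log_natCast_nonneg p)
        ((sum_primesIoc_log_le 0 (N / m)).trans ?_)
      · rw [mem_filter, mem_primesIoc] at hp
        exact mem_primesIoc.2 ⟨⟨hp.1.2.pos, hp.2⟩, hp.1.2⟩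
      · rw [mul_assoc, ← div_eq_mul_inv]
        exact mul_le_mul_of_nonneg_left Nat.cast_div_le (by norm_num)
    · rw [← mul_sum]
      refine mul_le_mul_of_nonneg_left ?_ (by positivity)
      have h := harmonic_le_one_add_log T
      rw [harmonic_eq_sum_Icc] at h
      push_cast at h
      exact h

/-- **The sum over dyadic ranges.** -/
theorem norm_primePart_le_of_steps (f : ℕ → ℂ) (α : ℝ) (N : ℕ) {A B : ℕ} (hAB : A ≤ B) {E : ℝ}
    (h : ∀ x y : ℕ, A ≤ x → x ≤ y → y ≤ 2 * x → y ≤ B →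
      ‖primePart f α N x y‖ ≤ E) :
    ∀ J : ℕ, ‖primePart f α N A (min (A * 2 ^ J) B)‖ ≤ J * E := by
  intro J
  induction J with
  | zero =>
    rw [pow_zero, mul_one, min_eq_left hAB, primePart, primesIoc, Ioc_self]
    simp
  | succ J ih =>
    obtain ⟨u, hu⟩ : ∃ u, u = min (A * 2 ^ J) B := ⟨_, rfl⟩
    obtain ⟨v, hv⟩ : ∃ v, v = min (A * 2 ^ (J + 1)) B := ⟨_, rfl⟩
    have hAu : A ≤ u := hu ▸ le_min (Nat.le_mul_of_pos_right A (Nat.two_pow_pos J)) hAB
    have huv : u ≤ v := by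
      rw [hu, hv]
      exact min_le_min_right _
        (Nat.mul_le_mul_left A (Nat.pow_le_pow_right two_pos (Nat.le_succ J)))
    have hv2 : v ≤ 2 * u := by
      rw [hu, hv, pow_succ, ← mul_assoc]
      omega
    rw [← hv, primePart_add f α N hAu huv, Nat.cast_succ, add_mul, one_mul]
    exact (norm_add_le _ _).trans (add_le_add (hu ▸ ih)
      (h u v hAu huv hv2 (hv ▸ min_le_right _ _)))

/-- **The theorem.** -/
theorem exists_expSum_bound : ∃ C : ℝ, 0 ≤ C ∧ ∀ f : ℕ → ℂ,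
    (∀ m n : ℕ, m.Coprime n → f (m * n) = f m * f n) → (∀ n, ‖f n‖ ≤ 1) →
    ∀ (N q : ℕ) (a : ℤ) (α R : ℝ), 2 ≤ N → 1 ≤ R → R ≤ q → (q : ℝ) * R ≤ N →
      IsUnit (a : ZMod q) → |α - a / q| ≤ 1 / (q : ℝ) ^ 2 →
        ‖∑ n ∈ Ioc 0 N, f n * eAdd ((n : ℕ) * α)‖ ≤
          C * (N * (1 + Real.log R) / Real.log N + N * Real.log N / √R) := by
  obtain ⟨C, hC, hdec⟩ := exists_decomposition
  refine ⟨C + 120, by positivity, fun f hmul hf N q a α R hN hR hRq hqR ha hα => ?_⟩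
  have hR0 : 0 < R := by linarith
  have hq1 : (1 : ℝ) ≤ q := hR.trans hRq
  have : NeZero q := ⟨by rintro rfl; norm_num at hq1⟩
  have hq0 : (0 : ℝ) < q := by linarith
  obtain ⟨l, hl⟩ : ∃ l, l = Real.log N := ⟨_, rfl⟩
  have hl2 : 0.69 ≤ l := by
    have := Real.log_le_log two_pos (show (2 : ℝ) ≤ N by exact_mod_cast hN)
    linarith [Real.log_two_gt_d9]
  have hl0 : 0 < l := by linarith
  have hN0 : (0 : ℝ) < N := Nat.cast_pos.2 (by omega)
  have hqN : (q : ℝ) ≤ N := (le_mul_of_one_le_right hq0.le hR).trans hqR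
  have hlq : 1 + Real.log q ≤ 3 * l := by
    have := Real.log_le_log hq0 hqN
    linarith
  obtain ⟨A, hA⟩ : ∃ A, A = ⌊R⌋₊ := ⟨_, rfl⟩
  obtain ⟨B, hB⟩ : ∃ B, B = ⌊(N : ℝ) / R⌋₊ := ⟨_, rfl⟩
  have hA1 : 1 ≤ A := hA ▸ Nat.floor_pos.2 hR
  have hAR : (A : ℝ) ≤ R := hA ▸ Nat.floor_le hR0.le
  have hBR : (B : ℝ) ≤ N / R := hB ▸ Nat.floor_le (by positivity)
  have hRN : R ≤ N / R := by
    rw [le_div_iff₀ hR0]
    exact (mul_le_mul_of_nonneg_right hRq hR0.le).trans hqR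
  have hAB : A ≤ B := hA ▸ hB ▸ Nat.floor_le_floor hRN
  have hBN : B ≤ N := Nat.cast_le.1 (hBR.trans (div_le_self hN0.le hR))
  have hRA : R ≤ 2 * A := by
    have h1 := Nat.lt_floor_add_one R
    rw [← hA] at h1
    have : (1 : ℝ) ≤ A := by exact_mod_cast hA1
    linarith
  have hmid : ∀ x y : ℕ, A ≤ x → x ≤ y → y ≤ 2 * x → y ≤ B →
      ‖primePart f α N x y‖ ≤ 24 * (N * l / √R) := by
    intro x y hAx hxy hy2 hyB
    have h := norm_primePart_sq_le ha hα hf (show 0 < x by omega) hy2 (hyB.trans hBN)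
    have hx0 : (0 : ℝ) < x := Nat.cast_pos.2 (by omega)
    have t1 : (N : ℝ) / q ≤ N / R := div_le_div_of_nonneg_left hN0.le hR0 hRq
    have t2 : (x : ℝ) ≤ N / R := (Nat.cast_le.2 (hxy.trans hyB)).trans hBR
    have t3 : (N : ℝ) / x ≤ 2 * (N / R) := by
      rw [show 2 * ((N : ℝ) / R) = N / (R / 2) by field_simp]
      refine div_le_div_of_nonneg_left hN0.le (by positivity) ?_
      have : (A : ℝ) ≤ x := Nat.cast_le.2 hAx
      linarith
    have t4 : (q : ℝ) ≤ N / R := (le_div_iff₀ hR0).2 hqR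
    obtain ⟨Z, hZ⟩ : ∃ Z, Z = (N : ℝ) / R := ⟨_, rfl⟩
    rw [← hZ] at t1 t2 t3 t4
    have hZ0 : 0 ≤ Z := hZ ▸ (by positivity)
    have hlq0 : 0 ≤ 1 + Real.log q := by linarith [Real.log_natCast_nonneg q]
    have u1 := mul_le_mul t2 hlq hlq0 hZ0
    have u2 := mul_le_mul t4 hlq hlq0 hZ0
    have u3 := mul_le_mul_of_nonneg_left hl2 hZ0
    refine le_of_pow_le_pow_left₀ two_ne_zero (by positivity) (h.trans ?_)
    rw [← hl, mul_pow, div_pow, Real.sq_sqrt hR0.le,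
      show (24 : ℝ) ^ 2 * (((N : ℝ) * l) ^ 2 / R) = 12 * N * l * (48 * (Z * l)) by rw [hZ]; ring]
    refine mul_le_mul_of_nonneg_left ?_ (by positivity)
    rw [mul_div_assoc, mul_div_assoc, mul_assoc 2 (x : ℝ), mul_assoc 2 (q : ℝ)]
    linarith
  obtain ⟨J, hJ⟩ : ∃ J, J = Nat.log 2 N + 1 := ⟨_, rfl⟩
  have hJB : B ≤ A * 2 ^ J :=
    hBN.trans ((Nat.lt_pow_succ_log_self one_lt_two N).le.trans
      (hJ ▸ Nat.le_mul_of_pos_left _ hA1))
  have hJl : (J : ℝ) ≤ 4 * l := by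
    have h1 : ((2 : ℕ) : ℝ) ^ Nat.log 2 N ≤ N := by
      exact_mod_cast Nat.pow_log_le_self 2 (by omega)
    have h2 := Real.log_le_log (by positivity) h1
    rw [Real.log_pow, ← hl] at h2
    push_cast at h2
    rw [hJ, Nat.cast_succ]
    have := Real.log_two_gt_d9
    nlinarith [(Nat.cast_nonneg (Nat.log 2 N) : (0 : ℝ) ≤ _)]
  have hM := norm_primePart_le_of_steps f α N hAB hmid J
  rw [min_eq_right hJB] at hM
  have hlow := norm_primePart_low_le hf α N hA1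
  have hhigh := norm_primePart_high_le hf α N B
  have hTR : Real.log (N / (B + 1) : ℕ) ≤ Real.log R := by
    rcases Nat.eq_zero_or_pos (N / (B + 1)) with h0 | h0
    · rw [h0, Nat.cast_zero, Real.log_zero]
      exact Real.log_nonneg hR
    · refine Real.log_le_log (Nat.cast_pos.2 h0) (Nat.cast_div_le.trans ?_)
      rw [div_le_iff₀ (by positivity), ← div_le_iff₀' hR0]
      push_cast
      exact (hB ▸ Nat.lt_floor_add_one _).le
  have hsplit : primePart f α N 0 N =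
      primePart f α N 0 A + primePart f α N A B + primePart f α N B N := by
    rw [← primePart_add f α N (Nat.zero_le A) hAB, ← primePart_add f α N (Nat.zero_le B) hBN]
  have hlA : Real.log A ≤ Real.log R := Real.log_le_log (Nat.cast_pos.2 hA1) hAR
  have hlR : 0 ≤ Real.log R := Real.log_nonneg hR
  obtain ⟨S, hS⟩ : ∃ S, S = ∑ n ∈ Ioc 0 N, f n * eAdd ((n : ℕ) * α) := ⟨_, rfl⟩
  have hT : ‖primePart f α N 0 N‖ ≤
      12 * (N * (1 + Real.log R)) + 96 * (N * l * l / √R) := by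
    rw [hsplit]
    refine norm_add₃_le.trans ((add_le_add (add_le_add hlow
      (hM.trans (mul_le_mul_of_nonneg_right hJl (by positivity)))) hhigh).trans ?_)
    have h1 := mul_le_mul_of_nonneg_left hlA hN0.le
    have h2 := mul_le_mul_of_nonneg_left hTR hN0.le
    have h4 : 0 ≤ (N : ℝ) * Real.log R := by positivity
    rw [show 4 * l * (24 * ((N : ℝ) * l / √R)) = 96 * (N * l * l / √R) by ring]
    linarith
  have hkey : l * ‖S‖ ≤
      (C + 12) * (N * (1 + Real.log R)) + 96 * (N * l * l / √R) := by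
    have h := hdec f hmul hf α N
    rw [← hS, ← hl] at h
    have h2 := norm_le_norm_sub_add ((l : ℂ) * S) (primePart f α N 0 N)
    rw [norm_mul, Complex.norm_real, Real.norm_of_nonneg hl0.le] at h2
    have h3 := mul_nonneg hC (mul_nonneg hN0.le hlR)
    linarith
  rw [← hS, ← hl]
  refine le_of_mul_le_mul_left (hkey.trans ?_) hl0
  rw [show l * ((C + 120) * ((N : ℝ) * (1 + Real.log R) / l + N * l / √R)) =
    (C + 120) * (N * (1 + Real.log R)) + (C + 120) * (N * l * l / √R) by field_simp]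
  have h1 : 0 ≤ (N : ℝ) * (1 + Real.log R) := by positivity
  have h2 : 0 ≤ (N : ℝ) * l * l / √R := by positivity
  have h3 := mul_nonneg hC h2
  linarith

/-- **`O (N log log N / log N)` on the minor arcs.** -/
theorem exists_minor_arc_bound : ∃ C : ℝ, 0 ≤ C ∧ ∀ f : ℕ → ℂ,
    (∀ m n : ℕ, m.Coprime n → f (m * n) = f m * f n) → (∀ n, ‖f n‖ ≤ 1) →
    ∀ (N q : ℕ) (a : ℤ) (α : ℝ), 3 ≤ N → Real.log N ^ 6 ≤ q → q * Real.log N ^ 6 ≤ N →
      IsUnit (a : ZMod q) → |α - a / q| ≤ 1 / (q : ℝ) ^ 2 →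
        ‖∑ n ∈ Ioc 0 N, f n * eAdd ((n : ℕ) * α)‖ ≤
          C * (N * (1 + Real.log (Real.log N)) / Real.log N) := by
  obtain ⟨C, hC, h⟩ := exists_expSum_bound
  refine ⟨7 * C, by positivity, fun f hmul hf N q a α hN hq hq' ha hα => ?_⟩
  obtain ⟨l, hl⟩ : ∃ l, l = Real.log N := ⟨_, rfl⟩
  rw [← hl] at hq hq' ⊢
  have hl1 : 1 ≤ l := by
    rw [hl, Real.le_log_iff_exp_le (Nat.cast_pos.2 (by omega))]
    have : (3 : ℝ) ≤ N := by exact_mod_cast hN
    linarith [Real.exp_one_lt_d9]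
  refine (h f hmul hf N q a α (l ^ 6) (by omega) (one_le_pow₀ hl1) hq hq' ha hα).trans ?_
  rw [← hl, Real.log_pow, show l ^ 6 = (l ^ 3) ^ 2 by ring, Real.sqrt_sq (by positivity),
    mul_comm 7 C, mul_assoc]
  refine mul_le_mul_of_nonneg_left ?_ hC
  have hll : 0 ≤ Real.log l := Real.log_nonneg hl1
  push_cast
  have e : (N : ℝ) * l / l ^ 3 ≤ N / l := by
    rw [div_le_div_iff₀ (by positivity) (by positivity)]
    calc (N : ℝ) * l * l = N * l ^ 2 := by ring
      _ ≤ N * l ^ 3 :=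
        mul_le_mul_of_nonneg_left (pow_le_pow_right₀ hl1 (by norm_num)) (Nat.cast_nonneg N)
  have h0 : 0 ≤ (N : ℝ) / l * Real.log l := by positivity
  have h1 : (0 : ℝ) ≤ N / l := by positivity
  rw [show (N : ℝ) * (1 + 6 * Real.log l) / l = N / l + 6 * (N / l * Real.log l) by ring,
    show 7 * ((N : ℝ) * (1 + Real.log l) / l) = 7 * (N / l) + 7 * (N / l * Real.log l) by ring]
  linarith

end FA.MultiplicativeExpSum

end
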